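import Fermat.Agent.S24.OP2848.NormProd

/-!
# PART P helper (helper2848): every zero of `s` is one of the places `w ∘ σ q` (norm trick)
-/

set_option autoImplicit false

namespace Fermat.Agent.S24.OP2848

open AlgebraicCurve WithZero IntermediateField IsDedekindDomain
open scoped IntermediateField.algebraAdjoinAdjoin

variable {K F : Type*} [Field K] [Field F] [Algebra K F]

/-- The intermediate field on which two ring homs agree. -/
def eqField {M : Type*} [Field M] (φ ψ : F →+* M)
    (hK : ∀ a : K, φ (algebraMap K F a) = ψ (algebraMap K F a)) : IntermediateField K F where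
  carrier := {x | φ x = ψ x}
  mul_mem' := fun {a b} ha hb => by
    simp only [Set.mem_setOf_eq, map_mul] at *
    rw [ha, hb]
  one_mem' := by simp
  add_mem' := fun {a b} ha hb => by
    simp only [Set.mem_setOf_eq, map_add] at *
    rw [ha, hb]
  zero_mem' := by simp
  algebraMap_mem' := hK
  inv_mem' := fun x hx => by
    simp only [Set.mem_setOf_eq, map_inv₀] at *
    rw [hx]

theorem eq_on_adjoin_simple {M : Type*} [Field M] (φ ψ : F →+* M) (s : F)
    (hK : ∀ a : K, φ (algebraMap K F a) = ψ (algebraMap K F a)) (hs : φ s = ψ s)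
    (l : K⟮s⟯) : φ (l : F) = ψ (l : F) := by
  have h : K⟮s⟯ ≤ eqField φ ψ hK :=
    adjoin_le_iff.mpr (Set.singleton_subset_iff.mpr hs)
  exact h l.2

theorem exists_place_eq [IsAlgClosed K] [CharZero K] (s : F) (hs : Transcendental K s)
    [FiniteDimensional K⟮s⟯ F]
    {M : Type*} [Field M] (w : Valuation M ℤᵐ⁰)
    {Q : Type*} [Fintype Q] (hQ : Fintype.card Q = Module.finrank K⟮s⟯ F)
    (σ : Q → F →+* M) (hσ : Function.Injective σ)
    (hbase : ∀ q q' (a : K), σ q (algebraMap K F a) = σ q' (algebraMap K F a))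
    (hbases : ∀ q q', σ q s = σ q' s)
    (hs0 : s ≠ 0)
    (hK : ∀ q (a : K), (w.comap (σ q)) (algebraMap K F a) ≤ 1)
    (hws : ∀ q, (w.comap (σ q)) s < 1)
    (v : Place K F) (hv : 0 < v.ord s) :
    ∃ q, v = placeOfVal (w.comap (σ q)) (hK q) s hs0 (hws q) := by
  classical
  let R := Algebra.adjoin K {s}
  let B := integralClosure R F
  haveI : IsPrincipalIdealRing R := adjoin_isPrincipalIdealRing s
  haveI : IsDedekindDomain B := IsIntegralClosure.isDedekindDomain R K⟮s⟯ F B
  haveI : IsFractionRing B F := IsIntegralClosure.isFractionRing_of_finite_extension R K⟮s⟯ F B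
  haveI : Module.Finite R B := IsIntegralClosure.finite R K⟮s⟯ F B
  let sR : R := ⟨s, Algebra.self_mem_adjoin_singleton K s⟩
  let p : Ideal R := Ideal.span {sR}
  haveI hpmax : p.IsMaximal := adjoin_span_isMaximal s hs
  have hcard : 0 < Fintype.card Q := by
    rw [hQ]; exact Module.finrank_pos
  obtain ⟨q₀⟩ : Nonempty Q := Fintype.card_pos_iff.mp hcard
  let vq : Q → Place K F := fun q => placeOfVal (w.comap (σ q)) (hK q) s hs0 (hws q)
  have hBv : ∀ b : B, algebraMap B F b ∈ v.toValuationSubring := fun b =>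
    Place_mem_of_isIntegral v (Place_adjoin_le v (Place_mem_of_ord_nonneg v hv.le)) b.2
  have hsq : ∀ q, s ∈ (vq q).toValuationSubring := fun q => le_of_lt (hws q)
  have hBq : ∀ q (b : B), algebraMap B F b ∈ (vq q).toValuationSubring := fun q b =>
    Place_mem_of_isIntegral (vq q) (Place_adjoin_le (vq q) (hsq q)) b.2
  obtain ⟨P, hP⟩ := Place_exists_heightOneSpectrum_of_le v hBv
  choose Pq hPq using fun q => Place_exists_heightOneSpectrum_of_le (vq q) (hBq q)
  have hBF : ∀ b : B, b ≠ 0 → algebraMap B F b ≠ 0 := fun b hb h0 =>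
    hb ((IsFractionRing.injective B F) (by rw [h0, map_zero]))
  have hmemP : ∀ b : B, b ≠ 0 → (b ∈ P.asIdeal ↔ 0 < v.ord (algebraMap B F b)) := by
    intro b hb
    rw [← hP, Place_ofHeightOneSpectrum_ord, ← HeightOneSpectrum.valuation_lt_one_iff_mem (K := F),
      val_lt_one_iff_log _ (hBF b hb)]
    omega
  have hmemPq : ∀ q (b : B), b ≠ 0 → (b ∈ (Pq q).asIdeal ↔ w (σ q (algebraMap B F b)) < 1) := by
    intro q b hb
    have h1 : b ∈ (Pq q).asIdeal ↔ 0 < (vq q).ord (algebraMap B F b) := by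
      rw [← hPq q, Place_ofHeightOneSpectrum_ord,
        ← HeightOneSpectrum.valuation_lt_one_iff_mem (K := F), val_lt_one_iff_log _ (hBF b hb)]
      omega
    rw [h1]
    exact placeOfVal_ord_pos_iff (w.comap (σ q)) (hK q) s hs0 (hws q) (hBF b hb)
  have hL : ∀ q q' (l : K⟮s⟯), σ q (l : F) = σ q' (l : F) := fun q q' l =>
    eq_on_adjoin_simple (σ q) (σ q') s (hbase q q') (hbases q q') l
  have hsub : (P.asIdeal : Set B) ⊆
      ⋃ q ∈ ((Finset.univ : Finset Q) : Set Q), ((Pq q).asIdeal : Set B) := by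
    intro b hb
    simp only [Finset.coe_univ, Set.mem_univ, Set.iUnion_true, Set.mem_iUnion, SetLike.mem_coe]
    rcases eq_or_ne b 0 with rfl | hb0
    · exact ⟨q₀, zero_mem _⟩
    let r : R := Algebra.intNorm R B b
    have hdvd : b ∣ algebraMap R B r := Algebra.dvd_algebraMap_intNorm_self R B b
    have hrP : algebraMap R B r ∈ P.asIdeal := P.asIdeal.mem_of_dvd hdvd hb
    have hsP : algebraMap R B sR ∈ P.asIdeal := by
      have hsB0 : algebraMap R B sR ≠ 0 := fun h => hs0 (congrArg (algebraMap B F) h)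
      rw [hmemP _ hsB0]
      exact hv
    have hcomap : p = P.asIdeal.comap (algebraMap R B) := by
      refine hpmax.eq_of_le (Ideal.comap_ne_top _ P.isPrime.ne_top) ?_
      rw [Ideal.span_le, Set.singleton_subset_iff]
      exact hsP
    have hrp : r ∈ p := by rw [hcomap]; exact hrP
    obtain ⟨r', hr'⟩ := Ideal.mem_span_singleton'.mp hrp
    have hN : algebraMap R K⟮s⟯ r = Algebra.norm K⟮s⟯ (algebraMap B F b) :=
      Algebra.algebraMap_intNorm (A := R) (B := B) (K := K⟮s⟯) (L := F) b
    have hprod := prod_eq_norm K⟮s⟯ hQ σ hσ hL q₀ (algebraMap B F b)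
    rw [← hN] at hprod
    have hrF : algebraMap K⟮s⟯ F (algebraMap R K⟮s⟯ r) = (r' : F) * s := by
      rw [← hr']
      rfl
    rw [hrF, map_mul] at hprod
    have hr'1 : w (σ q₀ (r' : F)) ≤ 1 := by
      have h1 : (r' : F) ∈ (vq q₀).toValuationSubring := Place_adjoin_le (vq q₀) (hsq q₀) r'.2
      exact h1
    have hlt : w (∏ q, σ q (algebraMap B F b)) < 1 := by
      rw [hprod, map_mul]
      calc w (σ q₀ (r' : F)) * w (σ q₀ s) ≤ 1 * w (σ q₀ s) := by gcongr
        _ = w (σ q₀ s) := one_mul _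
        _ < 1 := hws q₀
    rw [map_prod] at hlt
    by_contra hcon
    push Not at hcon
    have hall : ∀ q, w (σ q (algebraMap B F b)) = 1 := by
      intro q
      have h1 : w (σ q (algebraMap B F b)) ≤ 1 := hBq q b
      have h2 : ¬ w (σ q (algebraMap B F b)) < 1 := fun h => hcon q ((hmemPq q b hb0).mpr h)
      exact le_antisymm h1 (not_lt.mp h2)
    rw [Finset.prod_eq_one (fun q _ => hall q)] at hlt
    exact lt_irrefl _ hlt
  obtain ⟨q, -, hq⟩ := (Ideal.subset_union_prime q₀ q₀
    (fun q _ _ _ => (Pq q).isPrime)).mp hsub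
  have hPeq : P = Pq q := HeightOneSpectrum.ext (P.isMaximal.eq_of_le (Pq q).isPrime.ne_top hq)
  exact ⟨q, by rw [← hP, hPeq, hPq q]⟩

end Fermat.Agent.S24.OP2848
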