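import Fermat.Agent.S24.OP2848.PlaceBasic

set_option autoImplicit false

namespace Fermat.Agent.S24.OP2848

open AlgebraicCurve IsDedekindDomain WithZero

section Abstract

variable {K F : Type*} [Field K] [Field F] [Algebra K F]
variable {B : Type*} [CommRing B] [IsDedekindDomain B] [Algebra B F] [IsFractionRing B F]
  [Algebra K B] [IsScalarTower K B F]

theorem Place_exists_heightOneSpectrum_of_le (v : Place K F)
    (h : ∀ b : B, algebraMap B F b ∈ v.toValuationSubring) :
    ∃ w : HeightOneSpectrum B, Place.ofHeightOneSpectrum (K := K) w = v := by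
  classical
  let φ : B →+* v.toValuationSubring :=
    (algebraMap B F).codRestrict v.toValuationSubring.toSubring h
  have hφ : ∀ b : B, ((φ b : v.toValuationSubring) : F) = algebraMap B F b := fun b => rfl
  let P : Ideal B := (IsLocalRing.maximalIdeal v.toValuationSubring).comap φ
  have hP : P.IsPrime := Ideal.comap_isPrime φ _
  have hunit : ∀ b : B, b ∉ P → (algebraMap B F b)⁻¹ ∈ v.toValuationSubring := by
    intro b hb
    have hu : IsUnit (φ b) := by
      by_contra hnu
      exact hb ((IsLocalRing.mem_maximalIdeal _).mpr hnu)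
    obtain ⟨u, hu⟩ := hu
    have h1 : ((u : v.toValuationSubring) : F) * ((u⁻¹ : (v.toValuationSubring)ˣ) : v.toValuationSubring) = 1 := by
      have h2 : ((u : v.toValuationSubring) * ((u⁻¹ : (v.toValuationSubring)ˣ) : v.toValuationSubring)
          : v.toValuationSubring) = 1 := u.mul_inv
      have h3 := congrArg (Subtype.val) h2
      rwa [MulMemClass.coe_mul, OneMemClass.coe_one] at h3
    have : ((u⁻¹ : (v.toValuationSubring)ˣ) : F) = (algebraMap B F b)⁻¹ := by
      rw [← hφ b, ← hu]
      exact eq_inv_of_mul_eq_one_right h1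
    rw [← this]
    exact ((u⁻¹ : (v.toValuationSubring)ˣ) : v.toValuationSubring).2
  have hP0 : P ≠ ⊥ := by
    intro hbot
    apply v.ne_top'
    refine SetLike.ext fun f => ⟨fun _ => ValuationSubring.mem_top f, fun _ => ?_⟩
    obtain ⟨n, d, hd, rfl⟩ := IsFractionRing.div_surjective (A := B) f
    have hd0 : d ≠ 0 := nonZeroDivisors.ne_zero hd
    have hdP : d ∉ P := by
      rw [hbot]
      simpa using hd0
    rw [div_eq_mul_inv]
    exact mul_mem (h n) (hunit d hdP)
  refine ⟨⟨P, hP, hP0⟩, ?_⟩
  apply Place.ext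
  rw [Place.ofHeightOneSpectrum_toValuationSubring,
    ← HeightOneSpectrum.valuationSubringAtPrime_eq_valuationSubring]
  refine ValuationSubring.eq_of_le_of_ne_top _ ?_ v.ne_top'
  intro x hx
  rw [HeightOneSpectrum.valuationSubringAtPrime_eq_valuationSubring,
    Valuation.mem_valuationSubring_iff] at hx
  obtain ⟨n, d, hnd⟩ := HeightOneSpectrum.exists_primeCompl_mul_eq_of_integer _ x hx
  have hd := hunit d.1 d.2
  have hd0 : algebraMap B F d.1 ≠ 0 := by
    intro h0
    have : d.1 = 0 := (IsFractionRing.injective B F) (by rw [h0, map_zero])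
    exact d.2 (by rw [this]; exact Ideal.zero_mem _)
  have hx' : x = algebraMap B F n * (algebraMap B F d.1)⁻¹ := by
    rw [← hnd]
    field_simp
  rw [hx']
  exact mul_mem (h n) hd

theorem Place_valuation_irreducible_of_mem_iff (w : HeightOneSpectrum B) (v : Place K F)
    (hmem : ∀ x : F, x ∈ v.toValuationSubring ↔ w.valuation F x ≤ 1)
    {π : v.toValuationSubring} (hπ : Irreducible π) :
    w.valuation F (π : F) = exp (-1 : ℤ) := by
  have hπ0 : (π : F) ≠ 0 := by
    intro h0
    exact hπ.ne_zero (Subtype.ext h0)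
  have hπ1 : w.valuation F (π : F) ≤ 1 := (hmem _).mp π.2
  -- π is not a unit so its valuation is < 1
  have hlt : w.valuation F (π : F) < 1 := by
    rcases lt_or_eq_of_le hπ1 with h | h
    · exact h
    · exfalso
      have hinv : (π : F)⁻¹ ∈ v.toValuationSubring := by
        rw [hmem, map_inv₀, h, inv_one]
      apply hπ.not_isUnit
      refine IsUnit.of_mul_eq_one ⟨(π : F)⁻¹, hinv⟩ ?_
      apply Subtype.ext
      simp [hπ0]
  obtain ⟨ϖ, hϖ⟩ := w.valuation_exists_uniformizer F
  have hϖmem : ϖ ∈ v.toValuationSubring := by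
    rw [hmem, hϖ]
    exact (exp_le_exp.mpr (by norm_num : (-1 : ℤ) ≤ 0)).trans_eq exp_zero
  have hϖnu : ¬ IsUnit (⟨ϖ, hϖmem⟩ : v.toValuationSubring) := by
    rintro ⟨u, hu⟩
    have h2 : w.valuation F (((u⁻¹ : (v.toValuationSubring)ˣ) : v.toValuationSubring) : F) ≤ 1 :=
      (hmem _).mp ((u⁻¹ : (v.toValuationSubring)ˣ) : v.toValuationSubring).2
    have h3 : ((u : v.toValuationSubring) : F) * (((u⁻¹ : (v.toValuationSubring)ˣ) : v.toValuationSubring) : F) = 1 := by
      have h2' : ((u : v.toValuationSubring) * ((u⁻¹ : (v.toValuationSubring)ˣ) : v.toValuationSubring)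
          : v.toValuationSubring) = 1 := u.mul_inv
      have h3' := congrArg (Subtype.val) h2'
      rwa [MulMemClass.coe_mul, OneMemClass.coe_one] at h3'
    have h4 := congrArg (w.valuation F) h3
    rw [map_mul, map_one, hu] at h4
    change w.valuation F ϖ * _ = 1 at h4
    rw [hϖ] at h4
    have h5 : exp (-1 : ℤ) * w.valuation F (((u⁻¹ : (v.toValuationSubring)ˣ) : v.toValuationSubring) : F)
        ≤ exp (-1 : ℤ) * 1 := mul_le_mul_right h2 _
    rw [h4, mul_one] at h5
    have : (1 : ℤᵐ⁰) = exp (0 : ℤ) := exp_zero.symm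
    rw [this, exp_le_exp] at h5
    omega
  have hϖm : (⟨ϖ, hϖmem⟩ : v.toValuationSubring) ∈ IsLocalRing.maximalIdeal v.toValuationSubring :=
    (IsLocalRing.mem_maximalIdeal _).mpr hϖnu
  rw [hπ.maximalIdeal_eq, Ideal.mem_span_singleton'] at hϖm
  obtain ⟨c, hc⟩ := hϖm
  have hc' : (c : F) * (π : F) = ϖ := by
    have := congrArg (Subtype.val) hc
    simpa using this
  have hge : exp (-1 : ℤ) ≤ w.valuation F (π : F) := by
    rw [← hϖ, ← hc', map_mul]
    exact mul_le_of_le_one_left' ((hmem _).mp c.2)
  have hne : w.valuation F (π : F) ≠ 0 := (Valuation.ne_zero_iff _).mpr hπ0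
  rw [← exp_log hne] at hge hlt ⊢
  have : (1 : ℤᵐ⁰) = exp (0 : ℤ) := exp_zero.symm
  rw [this, exp_lt_exp] at hlt
  rw [exp_le_exp] at hge
  congr 1
  omega

theorem Place_ord_eq_of_mem_iff (w : HeightOneSpectrum B) (v : Place K F)
    (hmem : ∀ x : F, x ∈ v.toValuationSubring ↔ w.valuation F x ≤ 1) (f : F) :
    v.ord f = -log (w.valuation F f) := by
  rcases eq_or_ne f 0 with rfl | hf
  · simp
  obtain ⟨π, hπ⟩ := IsDiscreteValuationRing.exists_irreducible v.toValuationSubring
  obtain ⟨u, hu⟩ := v.exists_unit_mul_zpow hf hπ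
  have hπv := Place_valuation_irreducible_of_mem_iff w v hmem hπ
  have hu1 : w.valuation F ((u : v.toValuationSubring) : F) = 1 := by
    have h1 : w.valuation F ((u : v.toValuationSubring) : F) ≤ 1 := (hmem _).mp (u : v.toValuationSubring).2
    have h2 : w.valuation F (((u⁻¹ : (v.toValuationSubring)ˣ) : v.toValuationSubring) : F) ≤ 1 :=
      (hmem _).mp ((u⁻¹ : (v.toValuationSubring)ˣ) : v.toValuationSubring).2
    have h3 : ((u : v.toValuationSubring) : F) * (((u⁻¹ : (v.toValuationSubring)ˣ) : v.toValuationSubring) : F) = 1 := by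
      have h2' : ((u : v.toValuationSubring) * ((u⁻¹ : (v.toValuationSubring)ˣ) : v.toValuationSubring)
          : v.toValuationSubring) = 1 := u.mul_inv
      have h3' := congrArg (Subtype.val) h2'
      rwa [MulMemClass.coe_mul, OneMemClass.coe_one] at h3'
    have h4 := congrArg (w.valuation F) h3
    rw [map_mul, map_one] at h4
    exact le_antisymm h1 (by
      calc (1 : ℤᵐ⁰) = _ := h4.symm
        _ ≤ w.valuation F ((u : v.toValuationSubring) : F) * 1 := mul_le_mul_right h2 _
        _ = _ := mul_one _)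
  have key : w.valuation F f = exp (-(v.ord f)) := by
    conv_lhs => rw [hu]
    rw [map_mul, hu1, one_mul, map_zpow₀, hπv, ← exp_zsmul]
    congr 1
    simp
  rw [key, log_exp, neg_neg]

theorem Place_ofHeightOneSpectrum_ord (w : HeightOneSpectrum B) (f : F) :
    (Place.ofHeightOneSpectrum (K := K) (F := F) w).ord f = -log (w.valuation F f) :=
  Place_ord_eq_of_mem_iff w _ (fun x => by
    rw [Place.ofHeightOneSpectrum_toValuationSubring, Valuation.mem_valuationSubring_iff]) f

theorem Place_ofHeightOneSpectrum_injective :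
    Function.Injective (Place.ofHeightOneSpectrum (K := K) (F := F) (R := B)) := by
  intro w w' h
  apply HeightOneSpectrum.eq_of_valuation_isEquiv_valuation (K := F)
  rw [Valuation.isEquiv_iff_val_le_one]
  intro x
  have h1 := congrArg Place.toValuationSubring h
  rw [Place.ofHeightOneSpectrum_toValuationSubring, Place.ofHeightOneSpectrum_toValuationSubring] at h1
  rw [← Valuation.mem_valuationSubring_iff, ← Valuation.mem_valuationSubring_iff, h1]

theorem ramificationIdx'_eq_neg_log_valuation {R : Type*} [CommRing R] [Algebra R B] (t : R)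
    (w : HeightOneSpectrum B) (ht : algebraMap R B t ≠ 0) :
    -log (w.valuation F (algebraMap B F (algebraMap R B t)))
      = ((Ideal.span {t}).ramificationIdx' w.asIdeal : ℤ) := by
  rw [HeightOneSpectrum.valuation_of_algebraMap, w.intValuation_eq_exp_neg_multiplicity ht, log_exp,
    neg_neg]
  have hmap : Ideal.map (algebraMap R B) (Ideal.span {t}) = Ideal.span {algebraMap R B t} := by
    rw [Ideal.map_span, Set.image_singleton]
  have hne : Ideal.map (algebraMap R B) (Ideal.span {t}) ≠ ⊥ := by
    rw [hmap, Ne, Ideal.span_singleton_eq_bot]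
    exact ht
  rw [Ideal.IsDedekindDomain.ramificationIdx'_eq_multiplicity hne w.isPrime, hmap]

end Abstract

section Inertia

variable {K R B : Type*} [Field K] [CommRing R] [CommRing B] [Algebra K R] [Algebra R B] [Algebra K B]
  [IsScalarTower K R B]

theorem inertiaDeg'_eq_one_of_isAlgClosed [IsAlgClosed K] (p : Ideal R) (P : Ideal B) [P.LiesOver p]
    [P.IsPrime] [Module.Finite R B]
    (hconst : ∀ r : R, ∃ c : K, r - algebraMap K R c ∈ p) :
    p.inertiaDeg' P = 1 := by
  rw [Ideal.inertiaDeg'_algebraMap]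
  have : Module.Finite K (R ⧸ p) := by
    refine Module.Finite.of_surjective (Algebra.linearMap K (R ⧸ p)) ?_
    intro x
    obtain ⟨r, rfl⟩ := Ideal.Quotient.mk_surjective x
    obtain ⟨c, hc⟩ := hconst r
    refine ⟨c, ?_⟩
    rw [Algebra.linearMap_apply]
    symm
    rw [IsScalarTower.algebraMap_apply K R (R ⧸ p)]
    exact Ideal.Quotient.eq.mpr hc
  have : Module.Finite K (B ⧸ P) := Module.Finite.trans (R ⧸ p) (B ⧸ P)
  have : Algebra.IsIntegral K (B ⧸ P) := Algebra.IsIntegral.of_finite K (B ⧸ P)
  have hsurj : Function.Surjective (algebraMap K (B ⧸ P)) :=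
    (IsAlgClosed.algebraMap_bijective_of_isIntegral (k := K) (K := B ⧸ P)).2
  have : p.IsPrime := by
    have := Ideal.LiesOver.over (P := P) (p := p)
    rw [this]
    exact Ideal.IsPrime.under R P
  have : Nontrivial (B ⧸ P) := Ideal.Quotient.nontrivial_iff.mpr (Ideal.IsPrime.ne_top ‹_›)
  refine finrank_eq_one (1 : B ⧸ P) one_ne_zero ?_
  intro w
  obtain ⟨c, rfl⟩ := hsurj w
  refine ⟨algebraMap K (R ⧸ p) c, ?_⟩
  rw [algebraMap_smul, Algebra.smul_def, mul_one]

end Inertia

end Fermat.Agent.S24.OP2848
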