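import Fermat.Agent.S24.OP2848.ValPlace

/-!
# PART P helper (helper2848): a full set of embeddings computes the norm
-/

set_option autoImplicit false

namespace Fermat.Agent.S24.OP2848

open AlgebraicCurve WithZero IntermediateField

variable {K F : Type*} [Field K] [Field F] [Algebra K F]

/-- If `σ q` (`q ∈ Q`) are `[F : L]` pairwise distinct ring homs `F → M` that agree on `L`,
then `∏ q, σ q f = σ q₀ (N_{F/L} f)`. -/
theorem prod_eq_norm [CharZero K] (L : IntermediateField K F) [FiniteDimensional L F]
    {M : Type*} [Field M] {Q : Type*} [Fintype Q]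
    (hQ : Fintype.card Q = Module.finrank L F)
    (σ : Q → F →+* M) (hσ : Function.Injective σ)
    (hL : ∀ q q' (l : L), σ q (l : F) = σ q' (l : F)) (q₀ : Q) (f : F) :
    ∏ q, σ q f = σ q₀ (algebraMap L F (Algebra.norm L f)) := by
  classical
  let E := AlgebraicClosure M
  let φ : L →+* E := ((algebraMap M E).comp (σ q₀)).comp (algebraMap L F)
  letI : Algebra L E := φ.toAlgebra
  haveI : CharZero F := charZero_of_injective_algebraMap (algebraMap K F).injective
  haveI : CharZero L := charZero_of_injective_algebraMap (algebraMap K L).injective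
  let τ : Q → (F →ₐ[L] E) := fun q =>
    { toRingHom := (algebraMap M E).comp (σ q)
      commutes' := fun l => by
        show algebraMap M E (σ q (l : F)) = algebraMap M E (σ q₀ (l : F))
        rw [hL q q₀ l] }
  have hτinj : Function.Injective τ := by
    intro q q' h
    apply hσ
    ext x
    have h1 := congrArg (fun t : F →ₐ[L] E => t x) h
    exact (algebraMap M E).injective h1
  have hcard : Fintype.card (F →ₐ[L] E) = Fintype.card Q := by rw [AlgHom.card, hQ]
  have hτbij : Function.Bijective τ :=
    (Fintype.bijective_iff_injective_and_card τ).mpr ⟨hτinj, hcard.symm⟩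
  have hnorm := Algebra.norm_eq_prod_embeddings L E f
  have hprod : ∏ q, τ q f = ∏ t : F →ₐ[L] E, t f :=
    Fintype.prod_bijective τ hτbij _ _ (fun _ => rfl)
  apply (algebraMap M E).injective
  rw [map_prod]
  exact hprod.trans hnorm.symm

end Fermat.Agent.S24.OP2848
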