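import Fermat.Agent.S24.OP2848.Classify

set_option autoImplicit false

namespace Fermat.Agent.S24.OP2848

open AlgebraicCurve IsDedekindDomain WithZero IntermediateField
open scoped IntermediateField.algebraAdjoinAdjoin

variable {K F : Type*} [Field K] [Field F] [Algebra K F]

theorem adjoin_isPrincipalIdealRing (s : F) : IsPrincipalIdealRing (Algebra.adjoin K {s}) := by
  have h : Algebra.adjoin K {s} = (Polynomial.aeval s : Polynomial K →ₐ[K] F).range :=
    Algebra.adjoin_singleton_eq_range_aeval K s
  rw [h]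
  exact IsPrincipalIdealRing.of_surjective (Polynomial.aeval s : Polynomial K →ₐ[K] F).rangeRestrict
    (AlgHom.rangeRestrict_surjective _)

/-- the valuation subring of a place, as a `K`-subalgebra -/
def Place_subalgebra (v : Place K F) : Subalgebra K F :=
  { v.toValuationSubring.toSubring with
    algebraMap_mem' := v.algebraMap_mem' }

theorem Place_mem_subalgebra (v : Place K F) (f : F) :
    f ∈ Place_subalgebra v ↔ f ∈ v.toValuationSubring := Iff.rfl

theorem Place_adjoin_le (v : Place K F) {s : F} (hs : s ∈ v.toValuationSubring) :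
    Algebra.adjoin K {s} ≤ Place_subalgebra v :=
  Algebra.adjoin_le (Set.singleton_subset_iff.mpr hs)

theorem Place_mem_of_isIntegral (v : Place K F) {R : Subalgebra K F} (hR : R ≤ Place_subalgebra v)
    {b : F} (hb : IsIntegral R b) : b ∈ v.toValuationSubring := by
  obtain ⟨p, hp, hpb⟩ := hb
  let g : R →+* v.toValuationSubring :=
    (algebraMap R F).codRestrict v.toValuationSubring.toSubring (fun r => hR r.2)
  have hg : (algebraMap v.toValuationSubring F).comp g = algebraMap R F := rfl
  have hint : IsIntegral v.toValuationSubring b := by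
    refine ⟨p.map g, hp.map g, ?_⟩
    rw [Polynomial.eval₂_map, hg]
    exact hpb
  obtain ⟨y, hy⟩ := (IsIntegrallyClosed.isIntegral_iff (R := v.toValuationSubring) (K := F)).mp hint
  rw [← hy]
  exact y.2

/-- every element of `K[s]` is congruent to a constant modulo `s`. -/
theorem adjoin_exists_const_sub_mem (s : F) (r : Algebra.adjoin K {s}) :
    ∃ c : K, r - algebraMap K (Algebra.adjoin K {s}) c ∈
      Ideal.span {(⟨s, Algebra.self_mem_adjoin_singleton K s⟩ : Algebra.adjoin K {s})} := by
  have hr : (r : F) ∈ (Polynomial.aeval s : Polynomial K →ₐ[K] F).range := by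
    rw [← Algebra.adjoin_singleton_eq_range_aeval]; exact r.2
  obtain ⟨q, hq⟩ := hr
  refine ⟨q.coeff 0, Ideal.mem_span_singleton'.mpr
    ⟨⟨Polynomial.aeval s q.divX, Polynomial.aeval_mem_adjoin_singleton K s⟩, ?_⟩⟩
  apply Subtype.ext
  have h1 : (Polynomial.aeval s q : F) = Polynomial.aeval s q.divX * s + algebraMap K F (q.coeff 0) := by
    conv_lhs => rw [← Polynomial.divX_mul_X_add q]
    simp
  show Polynomial.aeval s q.divX * s = (r : F) - algebraMap K F (q.coeff 0)
  have hq' : (Polynomial.aeval s q : F) = (r : F) := hq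
  rw [← hq', h1]
  ring

theorem adjoin_span_ne_top (s : F) (hs : Transcendental K s) :
    Ideal.span {(⟨s, Algebra.self_mem_adjoin_singleton K s⟩ : Algebra.adjoin K {s})} ≠ ⊤ := by
  intro htop
  have h1 : (1 : Algebra.adjoin K {s}) ∈
      Ideal.span {(⟨s, Algebra.self_mem_adjoin_singleton K s⟩ : Algebra.adjoin K {s})} := by
    rw [htop]; trivial
  obtain ⟨t, ht⟩ := Ideal.mem_span_singleton'.mp h1
  have ht2 : (t : F) ∈ (Polynomial.aeval s : Polynomial K →ₐ[K] F).range := by
    rw [← Algebra.adjoin_singleton_eq_range_aeval]; exact t.2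
  obtain ⟨q, hq⟩ := ht2
  have hq' : (Polynomial.aeval s q : F) = (t : F) := hq
  have h2 : (t : F) * s = 1 := congrArg Subtype.val ht
  have h3 : Polynomial.aeval s (q * Polynomial.X - 1) = 0 := by
    simp [hq', h2]
  have h4 : q * Polynomial.X - 1 = 0 := by
    by_contra hne
    exact hs ⟨_, hne, h3⟩
  have h5 := congrArg (fun p : Polynomial K => p.coeff 0) h4
  simp at h5

theorem adjoin_span_isMaximal (s : F) (hs : Transcendental K s) :
    (Ideal.span {(⟨s, Algebra.self_mem_adjoin_singleton K s⟩ : Algebra.adjoin K {s})}).IsMaximal := by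
  rw [Ideal.isMaximal_iff]
  refine ⟨fun h1 => adjoin_span_ne_top s hs ((Ideal.eq_top_iff_one _).mpr h1), ?_⟩
  intro J x hJ hx hxJ
  obtain ⟨c, hc⟩ := adjoin_exists_const_sub_mem s x
  have hc0 : c ≠ 0 := by
    rintro rfl
    apply hx
    simpa using hc
  have hcJ : algebraMap K (Algebra.adjoin K {s}) c ∈ J := by
    have := J.sub_mem hxJ (hJ hc)
    simpa using this
  have : algebraMap K (Algebra.adjoin K {s}) c⁻¹ * algebraMap K (Algebra.adjoin K {s}) c ∈ J :=
    J.mul_mem_left _ hcJ
  rwa [← map_mul, inv_mul_cancel₀ hc0, map_one] at this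

theorem exists_finset_zeros_sum_ord [IsAlgClosed K] [CharZero K] (s : F) (hs : Transcendental K s)
    [FiniteDimensional K⟮s⟯ F] :
    ∃ S : Finset (Place K F), (∀ v, v ∈ S ↔ 0 < v.ord s) ∧
      ∑ v ∈ S, v.ord s = (Module.finrank K⟮s⟯ F : ℤ) := by
  classical
  let R := Algebra.adjoin K {s}
  let B := integralClosure R F
  haveI : IsPrincipalIdealRing R := adjoin_isPrincipalIdealRing s
  haveI : IsDedekindDomain B := IsIntegralClosure.isDedekindDomain R K⟮s⟯ F B
  haveI : IsFractionRing B F := IsIntegralClosure.isFractionRing_of_finite_extension R K⟮s⟯ F B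
  haveI : Module.Finite R B := IsIntegralClosure.finite R K⟮s⟯ F B
  let sR : R := ⟨s, Algebra.self_mem_adjoin_singleton K s⟩
  let p : Ideal R := Ideal.span {sR}
  haveI hpmax : p.IsMaximal := adjoin_span_isMaximal s hs
  have hs0 : s ≠ 0 := by
    rintro rfl
    exact hs (isAlgebraic_zero)
  have hsR0 : sR ≠ 0 := fun h => hs0 (congrArg Subtype.val h)
  have hp0 : p ≠ ⊥ := by
    rw [Ne, Ideal.span_singleton_eq_bot]
    exact hsR0
  have hsum := Ideal.sum_ramification_inertia B K⟮s⟯ F (p := p) hp0
  have hmemP : ∀ P ∈ IsDedekindDomain.primesOverFinset p B, P.IsPrime ∧ P.LiesOver p := fun P hP =>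
    (IsDedekindDomain.mem_primesOverFinset_iff hp0 _).mp hP
  have hPne : ∀ P ∈ IsDedekindDomain.primesOverFinset p B, P ≠ ⊥ := fun P hP =>
    haveI := (hmemP P hP).2
    Ideal.ne_bot_of_liesOver_of_ne_bot hp0 P
  let Φ : {P // P ∈ IsDedekindDomain.primesOverFinset p B} → Place K F := fun P =>
    Place.ofHeightOneSpectrum (K := K) ⟨P.1, (hmemP P.1 P.2).1, hPne P.1 P.2⟩
  have hsB : algebraMap R B sR ≠ 0 := by
    intro h
    exact hs0 (congrArg (algebraMap B F) h)
  have hsF : algebraMap B F (algebraMap R B sR) = s := rfl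
  have hord : ∀ P : {P // P ∈ IsDedekindDomain.primesOverFinset p B},
      (Φ P).ord s = (p.ramificationIdx' P.1 : ℤ) := by
    intro P
    show (Place.ofHeightOneSpectrum (K := K) (F := F) _).ord s = _
    rw [Place_ofHeightOneSpectrum_ord]
    exact ramificationIdx'_eq_neg_log_valuation (F := F) sR ⟨P.1, (hmemP P.1 P.2).1, hPne P.1 P.2⟩ hsB
  have hinert : ∀ P ∈ IsDedekindDomain.primesOverFinset p B, p.inertiaDeg' P = 1 := fun P hP => by
    haveI := (hmemP P hP).1
    haveI := (hmemP P hP).2
    exact inertiaDeg'_eq_one_of_isAlgClosed (K := K) p P (adjoin_exists_const_sub_mem s)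
  have hΦinj : Function.Injective Φ := by
    intro P P' h
    have := Place_ofHeightOneSpectrum_injective (K := K) (F := F) h
    exact Subtype.ext (congrArg HeightOneSpectrum.asIdeal this)
  refine ⟨(IsDedekindDomain.primesOverFinset p B).attach.image Φ, ?_, ?_⟩
  · intro v
    constructor
    · intro hv
      obtain ⟨P, -, rfl⟩ := Finset.mem_image.mp hv
      rw [hord]
      have hne : p.ramificationIdx' P.1 ≠ 0 := by
        haveI := (hmemP P.1 P.2).1
        haveI := (hmemP P.1 P.2).2
        exact Ideal.IsDedekindDomain.ramificationIdx'_ne_zero_of_liesOver P.1 hp0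
      exact_mod_cast Nat.pos_of_ne_zero hne
    · intro hv
      have hsmem : s ∈ v.toValuationSubring := Place_mem_of_ord_nonneg v hv.le
      have hR : R ≤ Place_subalgebra v := Place_adjoin_le v hsmem
      have hB : ∀ b : B, algebraMap B F b ∈ v.toValuationSubring := fun b =>
        Place_mem_of_isIntegral v hR b.2
      obtain ⟨w, rfl⟩ := Place_exists_heightOneSpectrum_of_le v hB
      have hsw : algebraMap R B sR ∈ w.asIdeal := by
        rw [← HeightOneSpectrum.valuation_lt_one_iff_mem (K := F)]
        show w.valuation F s < 1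
        rw [Place_ofHeightOneSpectrum_ord] at hv
        have hne : w.valuation F s ≠ 0 := (Valuation.ne_zero_iff _).mpr hs0
        rw [← exp_log hne, ← exp_zero, exp_lt_exp]
        omega
      have hover : w.asIdeal.LiesOver p := by
        refine ⟨?_⟩
        refine Ideal.IsMaximal.eq_of_le hpmax ?_ ?_
        · exact (Ideal.IsPrime.under R w.asIdeal).ne_top
        · rw [Ideal.span_le, Set.singleton_subset_iff]
          exact hsw
      have hmem : w.asIdeal ∈ IsDedekindDomain.primesOverFinset p B :=
        (IsDedekindDomain.mem_primesOverFinset_iff hp0 _).mpr ⟨w.isPrime, hover⟩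
      exact Finset.mem_image.mpr ⟨⟨w.asIdeal, hmem⟩, Finset.mem_attach _ _, rfl⟩
  · rw [Finset.sum_image (fun x _ y _ h => hΦinj h)]
    have h1 : ∑ P ∈ (IsDedekindDomain.primesOverFinset p B).attach, (Φ P).ord s
        = ∑ P ∈ (IsDedekindDomain.primesOverFinset p B).attach,
            ((p.ramificationIdx' P.1 * p.inertiaDeg' P.1 : ℕ) : ℤ) :=
      Finset.sum_congr rfl fun P _ => by rw [hord, hinert P.1 P.2, mul_one]
    rw [h1, Finset.sum_attach (IsDedekindDomain.primesOverFinset p B)
      (fun P => ((p.ramificationIdx' P * p.inertiaDeg' P : ℕ) : ℤ)), ← Nat.cast_sum, hsum]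

end Fermat.Agent.S24.OP2848
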