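import Fermat.Agent.S24.OP2848.SumOrd

/-!
# PART P helper (helper2848): the place of `F/K` attached to a `ℤᵐ⁰`-valued valuation
-/

set_option autoImplicit false

namespace Fermat.Agent.S24.OP2848

open AlgebraicCurve WithZero

variable {K F : Type*} [Field K] [Field F] [Algebra K F]

section ValPlace

variable (u : Valuation F ℤᵐ⁰)

theorem val_le_one_iff_log {f : F} (hf : f ≠ 0) : u f ≤ 1 ↔ log (u f) ≤ 0 := by
  have h0 : u f ≠ 0 := (Valuation.ne_zero_iff u).mpr hf
  rw [log_le_iff_le_exp h0, exp_zero]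

theorem val_lt_one_iff_log {f : F} (hf : f ≠ 0) : u f < 1 ↔ log (u f) < 0 := by
  have h0 : u f ≠ 0 := (Valuation.ne_zero_iff u).mpr hf
  rw [log_lt_iff_lt_exp h0, exp_zero]

theorem val_eq_one_iff_log {f : F} (hf : f ≠ 0) : u f = 1 ↔ log (u f) = 0 := by
  have h0 : u f ≠ 0 := (Valuation.ne_zero_iff u).mpr hf
  constructor
  · intro h; rw [h, log_one]
  · intro h
    rw [← exp_log h0, h, exp_zero]

theorem isPrincipalIdealRing_valuationSubring : IsPrincipalIdealRing u.valuationSubring := by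
  classical
  refine ⟨fun I => ?_⟩
  by_cases hI : I = ⊥
  · rw [hI]; exact bot_isPrincipal
  obtain ⟨a₀, ha₀I, ha₀0⟩ := Submodule.exists_mem_ne_zero_of_ne_bot hI
  let S : Set ℕ := {n | ∃ a : u.valuationSubring, a ∈ I ∧ a ≠ 0 ∧ (-(log (u (a : F)))).toNat = n}
  have hS : S.Nonempty := ⟨_, a₀, ha₀I, ha₀0, rfl⟩
  obtain ⟨a, haI, ha0, han⟩ := Nat.sInf_mem hS
  have haF : (a : F) ≠ 0 := fun h => ha0 (Subtype.ext h)
  refine ⟨⟨a, le_antisymm ?_ ?_⟩⟩
  · intro b hb
    rcases eq_or_ne b 0 with rfl | hb0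
    · exact zero_mem _
    have hbF : (b : F) ≠ 0 := fun h => hb0 (Subtype.ext h)
    have hmin : sInf S ≤ (-(log (u (b : F)))).toNat := Nat.sInf_le ⟨b, hb, hb0, rfl⟩
    have ha1 : log (u (a : F)) ≤ 0 := (val_le_one_iff_log u haF).mp a.2
    have hb1 : log (u (b : F)) ≤ 0 := (val_le_one_iff_log u hbF).mp b.2
    have hle : log (u (b : F)) ≤ log (u (a : F)) := by omega
    have hmem : (b : F) / (a : F) ∈ u.valuationSubring := by
      rw [Valuation.mem_valuationSubring_iff, val_le_one_iff_log u (div_ne_zero hbF haF), map_div₀,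
        log_div ((Valuation.ne_zero_iff u).mpr hbF) ((Valuation.ne_zero_iff u).mpr haF)]
      omega
    rw [Submodule.mem_span_singleton]
    exact ⟨⟨_, hmem⟩, Subtype.ext (by simp [div_mul_cancel₀ _ haF])⟩
  · rw [Submodule.span_le, Set.singleton_subset_iff]
    exact haI

/-- The place of `F/K` defined by a nontrivial `ℤᵐ⁰`-valued valuation that is `≤ 1` on constants. -/
noncomputable def placeOfVal (hK : ∀ a : K, u (algebraMap K F a) ≤ 1) (t : F) (ht0 : t ≠ 0)
    (ht : u t < 1) : Place K F where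
  toValuationSubring := u.valuationSubring
  algebraMap_mem' := fun a => (Valuation.mem_valuationSubring_iff u _).mpr (hK a)
  ne_top' := by
    intro h
    have h1 : t⁻¹ ∈ u.valuationSubring := by rw [h]; exact ValuationSubring.mem_top _
    rw [Valuation.mem_valuationSubring_iff, val_le_one_iff_log u (inv_ne_zero ht0), map_inv₀,
      log_inv] at h1
    rw [val_lt_one_iff_log u ht0] at ht
    omega
  isPrincipalIdealRing' := isPrincipalIdealRing_valuationSubring u

@[simp]
theorem placeOfVal_toValuationSubring (hK : ∀ a : K, u (algebraMap K F a) ≤ 1) (t : F)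
    (ht0 : t ≠ 0) (ht : u t < 1) :
    (placeOfVal u hK t ht0 ht).toValuationSubring = u.valuationSubring := rfl

/-- A unit of the valuation ring has valuation one. -/
theorem val_unit_eq_one (a : (u.valuationSubring)ˣ) : u ((a : u.valuationSubring) : F) = 1 := by
  have h1 : u ((a : u.valuationSubring) : F) ≤ 1 := (a : u.valuationSubring).2
  have h2 : u (((a⁻¹ : (u.valuationSubring)ˣ) : u.valuationSubring) : F) ≤ 1 :=
    ((a⁻¹ : (u.valuationSubring)ˣ) : u.valuationSubring).2
  have h3 : ((a : u.valuationSubring) : F) *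
      (((a⁻¹ : (u.valuationSubring)ˣ) : u.valuationSubring) : F) = 1 := by
    have h2' : ((a : u.valuationSubring) * ((a⁻¹ : (u.valuationSubring)ˣ) : u.valuationSubring)
        : u.valuationSubring) = 1 := a.mul_inv
    have h3' := congrArg (Subtype.val) h2'
    rwa [MulMemClass.coe_mul, OneMemClass.coe_one] at h3'
  have h4 := congrArg u h3
  rw [map_mul, map_one] at h4
  refine le_antisymm h1 ?_
  calc (1 : ℤᵐ⁰) = _ := h4.symm
    _ ≤ u ((a : u.valuationSubring) : F) * 1 := by gcongr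
    _ = _ := mul_one _

/-- The normalised order of the place of a valuation `u` is `-log u / d` for a positive `d`. -/
theorem exists_log_val_eq (hK : ∀ a : K, u (algebraMap K F a) ≤ 1) (t : F)
    (ht0 : t ≠ 0) (ht : u t < 1) :
    ∃ d : ℤ, 0 < d ∧ (∃ π : F, π ≠ 0 ∧ log (u π) = -d) ∧
      ∀ f : F, f ≠ 0 → log (u f) = -(d * (placeOfVal u hK t ht0 ht).ord f) := by
  set v := placeOfVal u hK t ht0 ht with hv
  obtain ⟨π, hπ⟩ := IsDiscreteValuationRing.exists_irreducible v.toValuationSubring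
  have hπF : (π : F) ≠ 0 := fun h => hπ.ne_zero (Subtype.ext h)
  have hπ1 : u (π : F) ≤ 1 := π.2
  have hπlt : u (π : F) < 1 := by
    rcases lt_or_eq_of_le hπ1 with h | h
    · exact h
    · exfalso
      apply hπ.not_isUnit
      have hinv : (π : F)⁻¹ ∈ u.valuationSubring := by
        rw [Valuation.mem_valuationSubring_iff, map_inv₀, h, inv_one]
      exact IsUnit.of_mul_eq_one ⟨(π : F)⁻¹, hinv⟩ (Subtype.ext (by simp [hπF]))
  have hd : 0 < -log (u (π : F)) := by
    have := (val_lt_one_iff_log u hπF).mp hπlt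
    omega
  refine ⟨-log (u (π : F)), hd, ⟨π, hπF, by ring⟩, fun f hf => ?_⟩
  obtain ⟨a, ha⟩ := v.exists_unit_mul_zpow hf hπ
  have hu1 : u ((a : v.toValuationSubring) : F) = 1 := val_unit_eq_one u a
  conv_lhs => rw [ha]
  rw [map_mul, hu1, one_mul, map_zpow₀, log_zpow, smul_eq_mul]
  ring

theorem placeOfVal_ord_pos_iff (hK : ∀ a : K, u (algebraMap K F a) ≤ 1) (t : F)
    (ht0 : t ≠ 0) (ht : u t < 1) {f : F} (hf : f ≠ 0) :
    0 < (placeOfVal u hK t ht0 ht).ord f ↔ u f < 1 := by
  obtain ⟨d, hd, -, h⟩ := exists_log_val_eq u hK t ht0 ht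
  rw [val_lt_one_iff_log u hf, h f hf]
  constructor
  · intro h1
    have := mul_pos hd h1
    omega
  · intro h1
    by_contra h2
    have h3 : (placeOfVal u hK t ht0 ht).ord f ≤ 0 := not_lt.mp h2
    have := mul_nonpos_of_nonneg_of_nonpos hd.le h3
    omega

end ValPlace

end Fermat.Agent.S24.OP2848
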